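import Fermat.Agent.LTG.Top.Iface
import Fermat.Agent.LT.J.PrimeEx

/-!
# LTG piece J: existence of primes `p ≡ 1 mod N` with `λ_w = -2`
(clone of LT/J/PrimeEx for `OctaG`; helper47)
-/

set_option autoImplicit false

open NumberField IsDedekindDomain Matrix
open Fermat.LT Fermat.Agent.LT.K
open Fermat.Agent.LTG.K (OctaG)

namespace Fermat.Agent.LT.J

local notation "Γℚ" => (AlgebraicClosure ℚ ≃ₐ[ℚ] AlgebraicClosure ℚ)

/-- For `g ∈ Γℚ` with `ρ g ∈ Q8` and trivial on the `N`-th roots of unity there are infinitely many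
primes `p ≡ 1 mod N` with places `v` of `K` and `w` of `L` of degree one over `p` and
`λ_w = trQ (ρ g)`. -/
theorem exists_prime_of_cyc_G (R : OctaG) (N : ℕ) [NeZero N] (T : Finset ℕ) (g : Γℚ)
    (hg : R.ρ g ∈ Q8) (hc : Cyclotomic.cyc N g = 1) :
    ∃ p : ℕ, p.Prime ∧ p ∉ T ∧ p ≡ 1 [MOD N] ∧ ∃ (v : Pl R.K) (w : Pl R.L),
      qv v = p ∧ Above v w ∧ qv w = qv v ∧ R.lam w = trQ (R.ρ g) := by
  obtain ⟨ζ, hζ⟩ := Cyclotomic.exists_primitiveRoot N
  obtain ⟨B, hB⟩ := Top.exists_finset_cen R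
  have hfin : FiniteDimensional ℚ (IntermediateField.adjoin ℚ ({ζ} : Set (AlgebraicClosure ℚ))) :=
    IntermediateField.adjoin.finiteDimensional (Algebra.IsIntegral.isIntegral ζ)
  let L' : IntermediateField ℚ (AlgebraicClosure ℚ) :=
    R.fld ⊥ ⊔ IntermediateField.adjoin ℚ {ζ}
  have hfin' : FiniteDimensional ℚ L' := IntermediateField.finiteDimensional_sup _ _
  have hζL : ζ ∈ L' := (le_sup_right : _ ≤ L')
    (IntermediateField.subset_adjoin ℚ _ (Set.mem_singleton ζ))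
  have hLL : R.fld ⊥ ≤ L' := le_sup_left
  obtain ⟨p, hp, hpT, A, σ, hA, hσ, hσg⟩ :=
    Density.Final.exists_frobenius_eq L' (T ∪ B ∪ N.primeFactors) g
  rw [Finset.mem_union, Finset.mem_union, Nat.mem_primeFactors] at hpT
  push Not at hpT
  obtain ⟨⟨hpT, hpB⟩, hpN⟩ := hpT
  have hpN' : ¬ p ∣ N := fun h => NeZero.ne N (hpN hp h)
  -- the image of `σ`
  have hρ : R.ρ σ = R.ρ g := by
    have h1 : R.ρ (g⁻¹ * σ) ∈ (⊥ : Subgroup G3) := by
      rw [← R.fixes_iff]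
      intro x hx
      rw [AlgEquiv.mul_apply, hσg x (hLL hx)]
      exact g.symm_apply_apply x
    rw [Subgroup.mem_bot, map_mul, map_inv, inv_mul_eq_one] at h1
    exact h1.symm
  have hcσ : Cyclotomic.cyc N σ = 1 := by
    have h1 : Cyclotomic.cyc N (g⁻¹ * σ) = 1 := by
      refine Cyclotomic.cyc_eq_one_of_fixes N _ hζ ?_
      rw [AlgEquiv.mul_apply, hσg ζ hζL]
      exact g.symm_apply_apply ζ
    rw [map_mul, map_inv, hc, inv_one, one_mul] at h1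
    exact h1
  have hmod : p ≡ 1 [MOD N] := by
    rw [← ZMod.natCast_eq_natCast_iff, Nat.cast_one,
      ← Cyclotomic.cyc_frobenius (n := N) hp hpN' A hA hσ, hcσ, Units.val_one]
  have hQ : R.ρ σ ∈ Q8 := by rw [hρ]; exact hg
  have hS : R.ρ σ ∈ SLs := Q8_le_SLs hQ
  have hI : (R.cen A).inertia Q8 = ⊥ := hB p hp hpB A hA
  have hqv : qv (R.und SLs (R.cen A) (R.cen_ne_bot hp hA)) = p :=
    Top.absNorm_und_G R hp hA hσ hS
  have hqw : qv (R.und Q8 (R.cen A) (R.cen_ne_bot hp hA)) = p :=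
    Top.absNorm_und_G R hp hA hσ hQ
  refine ⟨p, hp, hpT, hmod, R.und SLs (R.cen A) (R.cen_ne_bot hp hA),
    R.und Q8 (R.cen A) (R.cen_ne_bot hp hA), hqv, Top.above_und_G R (R.cen_ne_bot hp hA),
    by rw [hqw, hqv], ?_⟩
  rw [R.lam_cen hp hA hI hσ hQ, hρ]

/-- **Primes with `λ_w = -2`.** -/
theorem exists_prime_octa_G (R : OctaG) (N : ℕ) (hN : N ≠ 0) (T : Finset ℕ) :
    ∃ p : ℕ, p.Prime ∧ p ∉ T ∧ p ≡ 1 [MOD N] ∧ ∃ (v : Pl R.K) (w : Pl R.L),
      qv v = p ∧ Above v w ∧ qv w = qv v ∧ R.lam w = -2 := by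
  have : NeZero N := ⟨hN⟩
  obtain ⟨a, b, hab⟩ := exists_commutator
  obtain ⟨α, rfl⟩ := R.isOcta.surj a
  obtain ⟨β, rfl⟩ := R.isOcta.surj b
  have hρ : R.ρ (α * β * α⁻¹ * β⁻¹) = -1 := by
    rw [← hab, map_mul, map_mul, map_mul, map_inv, map_inv]
  have hc : Cyclotomic.cyc N (α * β * α⁻¹ * β⁻¹) = 1 := by
    rw [map_mul, map_mul, map_mul, map_inv, map_inv, mul_comm (Cyclotomic.cyc N α),
      mul_assoc (Cyclotomic.cyc N β), mul_inv_cancel, mul_one, mul_inv_cancel]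
  have h := exists_prime_of_cyc_G R N T (α * β * α⁻¹ * β⁻¹) (by rw [hρ]; exact neg_one_mem_Q8) hc
  have h2 : trQ (-1 : G3) = -2 := by
    rw [trQ, if_neg, if_pos rfl]
    intro h
    have h1 := congrArg (fun g : G3 => g 0 0) h
    simp only [negone00, one00] at h1
    exact absurd h1 (by decide)
  rwa [hρ, h2] at h

end Fermat.Agent.LT.J
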