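import Fermat.Agent.LTG.Top.Iface
import Fermat.Agent.LTG.J.PrimeEx
import Fermat.Agent.LT.J.ThetaJ

/-!
# LTG, piece J: the final assembly of `Top.ThetaJ_G`
(clone of LT/J/ThetaJ for `OctaG`; helper47)
-/

set_option autoImplicit false

open NumberField IsDedekindDomain Matrix MeasureTheory CongruenceSubgroup
open UpperHalfPlane hiding I
open Fermat.LT Fermat.Agent.LT.B Fermat.Agent.LT.D Fermat.Agent.LT.K Fermat.Agent.LT.J
open Fermat.Agent.LTG.K (OctaG)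
open scoped MatrixGroups ModularForm ENNReal

namespace Fermat.Agent.LT.Top

/-- **Output of H5**: non-vanishing of the period of the classical function attached to a form
on `K`. -/
def PeriodNe_G (R : OctaG) : Prop :=
  ∀ (D : Datum R.K) (M : ℕ) [NeZero M] (lam : Pl R.K → ℝ) (Φ : X D → ℂ),
    LevelDvd D M → EForm D lam Φ → Compat_G R D lam →
    ∀ (E : Eis3 D) (P : PhiSys M), BridgeOut E M lam P →
    ∃ (s₀ : GM M) (ρ₂ : ℍ → ℝ≥0∞) (_ : Fintype (GL (Fin 2) (ZMod M))), IsWeight SL(2, ℤ) ρ₂ ∧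
      ∫ τ : ℍ, ((ρ₂ τ).toReal : ℂ) *
        ∑ k : GL (Fin 2) (ZMod M), P.Φ (emb (τ, 0)) (zG M k * s₀) ≠ 0

open Classical in
theorem thetaJ_of_G (R : OctaG) (h5 : PeriodNe_G R) : ThetaJ_G R := by
  intro D M lam Φ hM hlev hΦ hcomp
  have : NeZero M := ⟨hM⟩
  obtain ⟨E⟩ := nonempty_eis3 D
  have hU : LevM D.toLevel M := ⟨hlev.good, hlev.le⟩
  -- the classical function
  obtain ⟨P, hP⟩ := exists_bridgeOut E hU hΦ.cusp hΦ.ne (S := goodPl D) (fun w hw => hw)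
    (lam := lam) hΦ.eig
  -- the period
  obtain ⟨s₀, ρ₂, hF, hρ₂, hper⟩ := h5 D M lam Φ hlev hΦ hcomp E P hP
  have hcf := P.exists_cf_ne_zero s₀ hρ₂ hper
  -- the bad primes
  have hfin : {p : ℕ | ∃ v : Pl R.K, D.n v ≠ 0 ∧ qv v = p}.Finite := by
    refine (D.n_fin.image fun v => Ideal.absNorm v.asIdeal).subset ?_
    rintro p ⟨v, hv, hp⟩
    refine ⟨v, hv, ?_⟩
    change (Ideal.absNorm v.asIdeal : ℝ) = p at hp
    exact_mod_cast hp
  set T : Finset ℕ := M.primeFactors ∪ {3} ∪ hfin.toFinset with hT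
  have hTmem : ∀ p : ℕ, p.Prime → p ∉ T → p ≠ 3 ∧ IsCoprime (p : ℤ) (M : ℤ) ∧
      ∀ v : Pl R.K, qv v = p → D.n v = 0 := by
    intro p hp hpT
    rw [hT, Finset.mem_union, Finset.mem_union, Finset.mem_singleton, Set.Finite.mem_toFinset,
      Nat.mem_primeFactors] at hpT
    push Not at hpT
    obtain ⟨⟨h1, h2⟩, h3⟩ := hpT
    refine ⟨h2, ?_, fun v hv => ?_⟩
    · rw [Nat.isCoprime_iff_coprime, hp.coprime_iff_not_dvd]
      intro hd
      exact hM (h1 hp hd)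
    · by_contra hn
      exact h3 ⟨v, hn, hv⟩
  -- the set of good primes
  let S : Set ℕ := {p | p.Prime ∧ p ∉ T ∧ ∃ v : Pl R.K, qv v = p}
  let lp : ℕ → ℝ := fun p => if h : ∃ v : Pl R.K, qv v = p then lam h.choose else 0
  have hlp : ∀ p (v : Pl R.K), p.Prime → p ∉ T → qv v = p → lp p = lam v := by
    intro p v hp hpT hv
    obtain ⟨h3, hcop, -⟩ := hTmem p hp hpT
    have hex : ∃ v : Pl R.K, qv v = p := ⟨v, hv⟩
    have e : lp p = lam hex.choose := dif_pos hex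
    rw [e]
    exact heckeAt_unique P s₀ (hP.heckeAt p hp h3 hcop _ hex.choose_spec)
      (hP.heckeAt p hp h3 hcop v hv) hcf
  obtain ⟨f, hf, hchar, hrel⟩ := P.main s₀ hρ₂ hper S lp (fun p hp => by
      obtain ⟨h1, h2, v, hv⟩ := hp
      obtain ⟨h3, hcop, -⟩ := hTmem p h1 h2
      rw [hlp p v h1 h2 hv]
      exact hP.heckeAt p h1 h3 hcop v hv) (by
    obtain ⟨p, hp, hpT, hmod, v, w, hqv, hab, hqw, hlam⟩ :=
      exists_prime_octa_G R (3 * M ^ 2) (by positivity) T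
    obtain ⟨h3, hcop, hn⟩ := hTmem p hp hpT
    refine ⟨p, ⟨hp, hpT, v, hqv⟩, hmod, ?_⟩
    rw [hlp p v hp hpT hqv, hcomp v w (hn v hqv) hab hqw, hlam]
    norm_num)
  refine ⟨f, T, hf, hchar, fun p hp hpT v hv _ n => ?_⟩
  rw [hrel p ⟨hp, hpT, v, hv⟩ n, hlp p v hp hpT hv]

end Fermat.Agent.LT.Top
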